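import Fermat.Agent.S18.DefsMod
import Fermat.Agent.S24.Modular

/-!
# S18, CH0 (D2), chart at infinity, `Place` form  (helper7789)

`ord_jb_inv_sub_eq_one` : the places of `Fb N` over `1/j = c`, `c ≠ 0`, `1728 * c ≠ 1`, are unramified.
Statement VERBATIM from `Fermat/Agent/S18/TInt.lean` v0 (origin/helper2926).  Proof: `1/j - c = -c * (1/j) * (j - 1/c)`,
`j` is a unit at such a place, and the landed `Fermat.Agent.S24.ord_eq_one_of_ne` applies to `j - 1/c`.
Imports only the frozen `DefsMod.lean` and the landed S24 tree.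
-/

set_option autoImplicit false

noncomputable section

namespace Fermat.Agent.S18.CH07789

open ModularCurve AlgebraicCurve

variable (N : ℕ) [NeZero N]

theorem jb_eq_jBar : jb N = Fermat.Agent.S24.jBar N := rfl

/-- generic: if `0 < ord_v (x⁻¹ - c)` with `c ≠ 0` a constant, then `ord_v (x⁻¹ - c) = ord_v (x - c⁻¹)`. -/
theorem ord_inv_sub_eq {K F : Type*} [Field K] [Field F] [Algebra K F] (v : Place K F) (x : F) (c : K)
    (hc : c ≠ 0) (hv : 0 < v.ord (x⁻¹ - algebraMap K F c)) :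
    v.ord (x⁻¹ - algebraMap K F c) = v.ord (x - algebraMap K F c⁻¹) := by
  have hC0 : algebraMap K F c ≠ 0 := by simpa using hc
  have hw0 : x⁻¹ - algebraMap K F c ≠ 0 := by
    intro h0
    rw [h0] at hv
    simp at hv
  have hCord : v.ord (algebraMap K F c) = 0 := Fermat.Agent.S24.A564.LD.ord_algebraMap v c
  have hxinv : v.ord x⁻¹ = 0 := by
    have h1 : x⁻¹ = algebraMap K F c + (x⁻¹ - algebraMap K F c) := by ring
    rw [h1, Fermat.Agent.S24.A564.LD.ord_add_eq_of_lt v hC0 hw0 (by rw [hCord]; exact hv), hCord]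
  have hx0 : x ≠ 0 := by
    intro h0
    apply hw0
    have h2 := hv
    rw [h0, inv_zero, zero_sub] at h2
    have h3 : v.ord (-algebraMap K F c) = 0 := by
      rw [← map_neg]
      exact Fermat.Agent.S24.A564.LD.ord_algebraMap v (-c)
    omega
  have hxi0 : x⁻¹ ≠ 0 := inv_ne_zero hx0
  have hd0 : x - algebraMap K F c⁻¹ ≠ 0 := by
    intro h0
    apply hw0
    have hx : x = algebraMap K F c⁻¹ := by linear_combination h0
    rw [hx, ← map_inv₀, inv_inv, sub_self]
  have hfac : x⁻¹ - algebraMap K F c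
      = (algebraMap K F (-c) * x⁻¹) * (x - algebraMap K F c⁻¹) := by
    rw [map_neg, map_inv₀]
    field_simp
    ring
  have hnc0 : algebraMap K F (-c) ≠ 0 := by simpa using hc
  rw [hfac, Place.ord_mul v (mul_ne_zero hnc0 hxi0) hd0, Place.ord_mul v hnc0 hxi0, hxinv,
    Fermat.Agent.S24.A564.LD.ord_algebraMap v (-c)]
  ring

/-- **CH0 (D2), chart inf** — statement verbatim from `TInt.lean` v0 (origin/helper2926). -/
theorem ord_jb_inv_sub_eq_one (c : AlgebraicClosure ℚ) (hc : c ≠ 0) (hc' : 1728 * c ≠ 1)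
    (v : Place (AlgebraicClosure ℚ) (Fb N))
    (hv : 0 < v.ord ((jb N)⁻¹ - algebraMap (AlgebraicClosure ℚ) (Fb N) c)) :
    v.ord ((jb N)⁻¹ - algebraMap (AlgebraicClosure ℚ) (Fb N) c) = 1 := by
  have h := ord_inv_sub_eq v (jb N) c hc hv
  have h1 : c⁻¹ ≠ 1728 := by
    intro h2
    apply hc'
    rw [← h2, inv_mul_cancel₀ hc]
  rw [h] at hv ⊢
  exact Fermat.Agent.S24.ord_eq_one_of_ne (N := N) c⁻¹ (inv_ne_zero hc) h1 v hv

end Fermat.Agent.S18.CH07789
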